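import Fermat.Agent.FF19.Kap.Fund
import Fermat.Agent.RED.EvBasic

/-!
# FF19 / KAP-8 (helper77): points of `Spec B` are finite places; a finite place is determined by the
values of the elements of `B`
-/

set_option autoImplicit false

namespace Fermat.Agent.FF19.Kap

open AlgebraicCurve IntermediateField Polynomial IsDedekindDomain
open Fermat.Agent.S24 Fermat.Agent.INJ Fermat.Agent.RED
open scoped IntermediateField.algebraAdjoinAdjoin

variable {k κ : Type*} [Field k] [Field κ] [Algebra k κ]

theorem PP_exists_prime {tb : κ} (h : IsSepVar k tb) (v : Place k κ)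
    (hv : tb ∈ v.toValuationSubring) :
    haveI := Fund_isDedekindDomain h
    haveI := Fund_isFractionRing h
    ∃ P : HeightOneSpectrum (intRing k tb), v = Place.ofHeightOneSpectrum P := by
  have := Fund_isDedekindDomain h
  have := Fund_isFractionRing h
  exact exists_heightOneSpectrum_of_le v (fun r => intRing_le_valuationSubring v hv r)

theorem PP_isInt_self (tb : κ) : IsInt k tb tb :=
  isIntegral_algebraMap (R := Algebra.adjoin k {tb}) (A := κ)
    (x := ⟨tb, Algebra.self_mem_adjoin_singleton k tb⟩)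

/-- `Ev` at the place of a prime `P` of `B`, for elements of `B`. -/
theorem PP_ev_zero_iff {tb : κ} (h : IsSepVar k tb) :
    haveI := Fund_isDedekindDomain h
    haveI := Fund_isFractionRing h
    ∀ (P : HeightOneSpectrum (intRing k tb)) (r : intRing k tb),
      Ev (Place.ofHeightOneSpectrum (K := k) P) (r : κ) 0 ↔ r ∈ P.asIdeal := by
  have := Fund_isDedekindDomain h
  have := Fund_isFractionRing h
  intro P r
  by_cases hr : r = 0
  · subst hr
    exact ⟨fun _ => P.asIdeal.zero_mem, fun _ => ev_zero _⟩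
  · have hr' : (r : κ) ≠ 0 := fun h0 => hr (Subtype.ext h0)
    rw [ev_zero_iff_ord hr']
    exact ord_algebraMap_pos_iff (K := k) (F := κ) P r hr

theorem stmt_PtPlace : Stmt_PtPlace := by
  intro k κ _ _ _ _ tb h χ hχc hχ
  have := Fund_isDedekindDomain h
  have := Fund_isFractionRing h
  let φ : intRing k tb →+* k :=
    { toFun := fun b => χ (b : κ)
      map_one' := by
        show χ (1 : κ) = 1
        rw [← map_one (algebraMap k κ), hχc]
      map_zero' := by
        show χ (0 : κ) = 0
        rw [← map_zero (algebraMap k κ), hχc]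
      map_add' := fun a b => (hχ a b a.2 b.2).1
      map_mul' := fun a b => (hχ a b a.2 b.2).2 }
  have hφc : ∀ c : k, φ (algebraMap k (intRing k tb) c) = c := fun c => hχc c
  have hsurj : Function.Surjective φ := fun c => ⟨_, hφc c⟩
  have hmax : (RingHom.ker φ).IsMaximal := RingHom.ker_isMaximal_of_surjective φ hsurj
  have hne : RingHom.ker φ ≠ ⊥ := by
    intro hbot
    let b₀ : intRing k tb := ⟨tb, PP_isInt_self tb⟩ - algebraMap k (intRing k tb) (χ tb)
    have hb₀ : b₀ ∈ RingHom.ker φ := by
      rw [RingHom.mem_ker, map_sub, hφc]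
      exact sub_self _
    rw [hbot, Ideal.mem_bot] at hb₀
    have h1 : tb - algebraMap k κ (χ tb) = 0 := congrArg Subtype.val hb₀
    apply h.trans
    rw [sub_eq_zero.1 h1]
    exact isAlgebraic_algebraMap _
  let P : HeightOneSpectrum (intRing k tb) := ⟨RingHom.ker φ, hmax.isPrime, hne⟩
  refine ⟨Place.ofHeightOneSpectrum (K := k) P, fun y hy => ?_⟩
  let r : intRing k tb := ⟨y, hy⟩ - algebraMap k (intRing k tb) (χ y)
  have hr : r ∈ P.asIdeal := by
    show r ∈ RingHom.ker φ
    rw [RingHom.mem_ker, map_sub, hφc]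
    exact sub_self _
  have h1 := (PP_ev_zero_iff h P r).2 hr
  exact ev_zero_iff.1 h1

theorem stmt_PlaceExt : Stmt_PlaceExt := by
  intro k κ _ _ _ _ tb h v v' hv hvv'
  have := Fund_isDedekindDomain h
  have := Fund_isFractionRing h
  have := h.fin
  obtain ⟨c, hc⟩ := ev_exists tb h.trans hv
  have hv' : tb ∈ v'.toValuationSubring := ev_mem (hvv' tb c (PP_isInt_self tb) hc)
  obtain ⟨P, rfl⟩ := PP_exists_prime h v hv
  obtain ⟨P', rfl⟩ := PP_exists_prime h v' hv'
  have hle : P.asIdeal ≤ P'.asIdeal := fun r hr =>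
    (PP_ev_zero_iff h P' r).1 (hvv' r 0 r.2 ((PP_ev_zero_iff h P r).2 hr))
  have heq : P.asIdeal = P'.asIdeal := P.isMaximal.eq_of_le P'.isPrime.ne_top hle
  rw [HeightOneSpectrum.ext heq]

end Fermat.Agent.FF19.Kap
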