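import Fermat.Agent.FF19.Kap.ValPlace
import Fermat.Agent.FF19.NS.Interface
import Fermat.Agent.FF19.A.Defs

/-!
# FF19 / KAP : adapters KAP ⟹ NS-ABS (`NS.PtAx`, `NS.UnrFib`) and NS-ABS ⟹ `A.Base.ns`, `Law.Fibres`

`Pts k` = all valuation subrings `≠ ⊤` of `κ` containing `k` (= the rings of the places, `Stmt_ValPlace`).
-/

set_option autoImplicit false

namespace Fermat.Agent.FF19.Kap

open AlgebraicCurve IntermediateField
open Fermat.Agent.INJ (IsInt)
open Fermat.Agent.RED (Ev)

/-- the points of `κ / k`. -/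
def Pts (k : Type*) {κ : Type*} [Field k] [Field κ] [Algebra k κ] : Set (ValuationSubring κ) :=
  {x | (∀ c : k, algebraMap k κ c ∈ x) ∧ x ≠ ⊤}

/-- [PtAx] the axioms of NS-ABS on points. -/
def Stmt_PtAx : Prop :=
  ∀ (k κ : Type) [Field k] [Field κ] [Algebra k κ] [IsAlgClosed k] (tb : κ), IsSepVar k tb →
    NS.PtAx k (Pts k (κ := κ))

/-- [UnrFin] all but finitely many fibres are unramified, in the sense of NS-ABS. -/
def Stmt_UnrFin : Prop :=
  ∀ (k κ : Type) [Field k] [Field κ] [Algebra k κ] [IsAlgClosed k] (tb : κ), IsSepVar k tb →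
    {c : k | ¬ ∃ s, NS.UnrFib k (Pts k (κ := κ)) tb (Module.finrank k⟮tb⟯ κ) c s}.Finite

/-- [NSOut] **the output of NS in the language of blocks A and LAW**: `g` complete unramified fibres
`w i · ` of `tb` (`s + 1 = [κ : k(tb)]` distinct places each), with pairwise distinct values `cb i ∉ Z`, such that
`∑ w i 0` is non special.  (Apply it twice, the second time with `Z ∪ image cb`, for the two charts.) -/
def Stmt_NSOut : Prop :=
  ∀ (k κ : Type) [Field k] [Field κ] [Algebra k κ] [IsAlgClosed k] (tb : κ), IsSepVar k tb →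
    ∀ s g m : ℕ, Module.finrank k⟮tb⟯ κ = s + 1 → NS.UB k tb (s + 1) g m →
    ∀ Z : Finset k, ∃ (cb : Fin g → k) (w : Fin g → Fin (s + 1) → Place k κ),
      Function.Injective cb ∧ (∀ i, cb i ∉ Z) ∧
      (∀ i l, (w i l).ord (tb - algebraMap k κ (cb i)) = 1) ∧
      (∀ i, Function.Injective (w i)) ∧
      (∀ i (y : Place k κ), 0 < y.ord (tb - algebraMap k κ (cb i)) → ∃ l, y = w i l) ∧
      Function.Injective (fun i => w i 0) ∧
      (∀ h : κ, h ≠ 0 → (∀ y : Place k κ, 0 ≤ A.sumPl (fun i => w i 0) y + y.ord h) →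
        ∃ c : k, h = algebraMap k κ c)

end Fermat.Agent.FF19.Kap
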