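import Fermat.Agent.FF19.Kap.Fund

/-!
# FF19 / KAP-9 (helper35): the local ring of a finite place is a localisation of `B`; CRT
-/

set_option autoImplicit false

namespace Fermat.Agent.FF19.Kap

open AlgebraicCurve IntermediateField Polynomial IsDedekindDomain
open Fermat.Agent.S24 Fermat.Agent.INJ Fermat.Agent.RED
open scoped IntermediateField.algebraAdjoinAdjoin

variable {k κ : Type*} [Field k] [Field κ] [Algebra k κ]

/-- `m ≤ ord` for an element of `P ^ m`. -/
theorem LF_le_ord_of_mem_pow {R : Type*} [CommRing R] [IsDedekindDomain R] [Algebra R κ]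
    [IsFractionRing R κ] [Algebra k R] [IsScalarTower k R κ] (P : HeightOneSpectrum R) (r : R)
    (hr : r ≠ 0) (m : ℕ) (h : r ∈ P.asIdeal ^ m) :
    (m : ℤ) ≤ (Place.ofHeightOneSpectrum (K := k) P).ord (algebraMap R κ r) := by
  have hr' : algebraMap R κ r ≠ 0 := by
    simpa using (IsFractionRing.injective R κ).ne hr
  rw [ord_ofHeightOneSpectrum P _ hr', HeightOneSpectrum.valuation_of_algebraMap]
  have h1 : P.intValuation r ≤ WithZero.exp (-(m : ℤ)) :=
    (P.intValuation_le_pow_iff_mem r m).2 h
  have h0 : P.intValuation r ≠ 0 := P.intValuation_ne_zero r hr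
  have h2 : WithZero.log (P.intValuation r) ≤ -(m : ℤ) := by
    have := (WithZero.log_le_log h0 WithZero.exp_ne_zero).2 h1
    rwa [WithZero.log_exp] at this
  omega

theorem LF_exists_prime {tb : κ} (h : IsSepVar k tb) (v : Place k κ)
    (hv : tb ∈ v.toValuationSubring) :
    haveI := Fund_isDedekindDomain h
    haveI := Fund_isFractionRing h
    ∃ P : HeightOneSpectrum (intRing k tb), v = Place.ofHeightOneSpectrum P := by
  have := Fund_isDedekindDomain h
  have := Fund_isFractionRing h
  exact exists_heightOneSpectrum_of_le v (fun r => intRing_le_valuationSubring v hv r)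

theorem stmt_LocFrac : Stmt_LocFrac := by
  intro k κ _ _ _ _ tb h v hv
  have := Fund_isDedekindDomain h
  have := Fund_isFractionRing h
  obtain ⟨P, rfl⟩ := LF_exists_prime h v hv
  refine ⟨?_, ?_⟩
  · intro f hf
    obtain ⟨a, b, hb, hab⟩ := exists_div_of_ord_nonneg (K := k) P f (ord_nonneg_of_mem _ hf)
    have hb0 : b ≠ 0 := by
      rintro rfl
      exact hb P.asIdeal.zero_mem
    have hb' : algebraMap (intRing k tb) κ b ≠ 0 := by
      simpa using (IsFractionRing.injective (intRing k tb) κ).ne hb0
    refine ⟨algebraMap (intRing k tb) κ a, algebraMap (intRing k tb) κ b, a.2, b.2, ?_, hb', ?_⟩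
    · have h1 := ord_algebraMap_nonneg (K := k) (F := κ) P b
      have h2 := (ord_algebraMap_pos_iff (K := k) (F := κ) P b hb0).not.2 hb
      omega
    · rw [← hab, mul_div_assoc, div_self hb', mul_one]
  · obtain ⟨w, hw⟩ := P.intValuation_exists_uniformizer
    have hw0 : w ≠ 0 := by
      rintro rfl
      rw [map_zero] at hw
      exact WithZero.exp_ne_zero hw.symm
    have hw' : algebraMap (intRing k tb) κ w ≠ 0 := by
      simpa using (IsFractionRing.injective (intRing k tb) κ).ne hw0
    refine ⟨algebraMap (intRing k tb) κ w, w.2, ?_⟩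
    rw [ord_ofHeightOneSpectrum P _ hw', HeightOneSpectrum.valuation_of_algebraMap, hw,
      WithZero.log_exp]
    norm_num

theorem stmt_CRT : Stmt_CRT := by
  intro k κ _ _ _ _ tb h s hs a ha m
  classical
  have := Fund_isDedekindDomain h
  have := Fund_isFractionRing h
  have hP : ∀ v : s, ∃ P : HeightOneSpectrum (intRing k tb),
      (v : Place k κ) = Place.ofHeightOneSpectrum P := fun v => LF_exists_prime h v.1 (hs v.1 v.2)
  choose P hP using hP
  obtain ⟨y, hy⟩ := IsDedekindDomain.exists_forall_sub_mem_ideal (s := (Finset.univ : Finset s))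
    (fun v => (P v).asIdeal) (fun _ => m) (fun v _ => (P v).prime)
    (by
      intro v _ w _ hvw hPvw
      apply hvw
      have : P v = P w := HeightOneSpectrum.ext hPvw
      apply Subtype.ext
      rw [hP v, hP w, this])
    (fun v => (⟨a v.1.1, ha v.1.1 v.1.2⟩ : intRing k tb))
  refine ⟨algebraMap (intRing k tb) κ y, y.2, ?_⟩
  intro v hv
  have h1 : y - (⟨a v, ha v hv⟩ : intRing k tb) ∈ (P ⟨v, hv⟩).asIdeal ^ m :=
    hy ⟨v, hv⟩ (Finset.mem_univ _)
  by_cases h0 : y - (⟨a v, ha v hv⟩ : intRing k tb) = 0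
  · left
    have := congrArg (algebraMap (intRing k tb) κ) h0
    rw [map_sub, map_zero] at this
    exact this
  · right
    have h2 := LF_le_ord_of_mem_pow (k := k) (κ := κ) (P ⟨v, hv⟩) _ h0 m h1
    rw [← hP ⟨v, hv⟩, map_sub] at h2
    exact h2

end Fermat.Agent.FF19.Kap
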