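import Fermat.Agent.FF19.Kap.Defs

/-!
# FF19 / KAP : statements (each `Stmt_X` is proved in `Kap/X.lean` as `theorem stmt_X`)

`n = [κ : k(tb)]`, `B = ` integral closure of `k[tb]` in `κ` (`IsInt k tb`), a place `v` is *finite*
if `tb ∈ v.toValuationSubring`.
-/

set_option autoImplicit false

namespace Fermat.Agent.FF19.Kap

open AlgebraicCurve IntermediateField
open Fermat.Agent.S24 (zeroPlaces)
open Fermat.Agent.INJ (IsInt)
open Fermat.Agent.RED (Ev)

/-- [Fund] the fundamental identity for a separating variable: `∑_{x(v) = 0} ord_v x = [κ : k(x)]`.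
(Copy of `S24/FundId` l.173-261 with `Algebra.IsSeparable` instead of `CharZero`.) -/
def Stmt_Fund : Prop :=
  ∀ (k κ : Type) [Field k] [Field κ] [Algebra k κ] [IsAlgClosed k] (x : κ), IsSepVar k x →
    ∃ hfin : (zeroPlaces (K := k) x).Finite,
      ∑ v ∈ hfin.toFinset, v.ord x = (Module.finrank k⟮x⟯ κ : ℤ)

/-- [SepGen] every nonzero `x` is separating, or `x * tb` is.
(`Ω[κ⁄k]` is spanned by `D tb ≠ 0`; `D x ≠ 0 ⇒ Ω[κ⁄k(x)] = 0 ⇒` separable;
`D x = 0 ⇒ D (x * tb) = x • D tb ≠ 0`.) -/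
def Stmt_SepGen : Prop :=
  ∀ (k κ : Type) [Field k] [Field κ] [Algebra k κ] [IsAlgClosed k] (tb : κ), IsSepVar k tb →
    ∀ x : κ, x ≠ 0 → IsSepVar k x ∨ IsSepVar k (x * tb)

/-- [Shift] `tb - c` and `tb⁻¹` are separating variables of the same degree. -/
def Stmt_Shift : Prop :=
  ∀ (k κ : Type) [Field k] [Field κ] [Algebra k κ] (tb : κ), IsSepVar k tb →
    (∀ c : k, IsSepVar k (tb - algebraMap k κ c) ∧
      Module.finrank k⟮tb - algebraMap k κ c⟯ κ = Module.finrank k⟮tb⟯ κ) ∧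
    IsSepVar k tb⁻¹ ∧ Module.finrank k⟮tb⁻¹⟯ κ = Module.finrank k⟮tb⟯ κ

/-- [Basic] places have degree one, values exist, there are infinitely many places. -/
def Stmt_Basic : Prop :=
  ∀ (k κ : Type) [Field k] [Field κ] [Algebra k κ] [IsAlgClosed k] (tb : κ), IsSepVar k tb →
    (∀ v : Place k κ, v.deg = 1) ∧
    (∀ (v : Place k κ) (f : κ), f ∈ v.toValuationSubring → ∃ c : k, Ev v f c) ∧
    (∀ c : k, ∃ v : Place k κ, Ev v tb c) ∧
    Infinite (Place k κ)

/-- [Deg0] every nonzero function has a divisor, of degree `0`. -/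
def Stmt_Deg0 : Prop :=
  ∀ (k κ : Type) [Field k] [Field κ] [Algebra k κ] [IsAlgClosed k] (tb : κ), IsSepVar k tb →
    HasPrincipalDivisors k κ

/-- [RRS] elementary facts on the spaces `L(D)`. -/
def Stmt_RRS : Prop :=
  ∀ (k κ : Type) [Field k] [Field κ] [Algebra k κ] [IsAlgClosed k] (tb : κ), IsSepVar k tb →
    (∀ D : Divisor k κ, Module.Finite k (riemannRochSpace D)) ∧
    (∀ D : Divisor k κ, Divisor.degree D < 0 → riemannRochSpace D = ⊥) ∧
    (∀ f : κ, f ∈ riemannRochSpace (0 : Divisor k κ) ↔ f ∈ Set.range (algebraMap k κ)) ∧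
    (∀ (D : Divisor k κ) (v : Place k κ),
      Module.finrank k (riemannRochSpace D) ≤
        Module.finrank k (riemannRochSpace (D + Finsupp.single v 1)) ∧
      Module.finrank k (riemannRochSpace (D + Finsupp.single v 1)) ≤
        Module.finrank k (riemannRochSpace D) + 1) ∧
    (∀ (D E : Divisor k κ) (f : κ), f ≠ 0 → (∀ v : Place k κ, E v = v.ord f) →
      Module.finrank k (riemannRochSpace (D + E)) = Module.finrank k (riemannRochSpace D))

/-- [FibDiv] the fibres of `tb` as divisors of degree `n`. -/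
def Stmt_FibDiv : Prop :=
  ∀ (k κ : Type) [Field k] [Field κ] [Algebra k κ] [IsAlgClosed k] (tb : κ), IsSepVar k tb →
    (∃ D : Divisor k κ, IsPoleDiv tb D ∧ Divisor.degree D = (Module.finrank k⟮tb⟯ κ : ℤ)) ∧
    (∀ c : k, ∃ D : Divisor k κ, IsZeroDiv (tb - algebraMap k κ c) D ∧
      Divisor.degree D = (Module.finrank k⟮tb⟯ κ : ℤ)) ∧
    (∀ (c : k) (v : Place k κ), max 0 (-v.ord (tb - algebraMap k κ c)) = max 0 (-v.ord tb))

/-- [Unram] all but finitely many fibres of `tb` are unramified. -/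
def Stmt_Unram : Prop :=
  ∀ (k κ : Type) [Field k] [Field κ] [Algebra k κ] [IsAlgClosed k] (tb : κ), IsSepVar k tb →
    {c : k | ∃ v : Place k κ, 2 ≤ v.ord (tb - algebraMap k κ c)}.Finite

/-- [Fibre] an unramified fibre consists of exactly `n` places. -/
def Stmt_Fibre : Prop :=
  ∀ (k κ : Type) [Field k] [Field κ] [Algebra k κ] [IsAlgClosed k] (tb : κ), IsSepVar k tb →
    ∀ c : k, (∀ v : Place k κ, v.ord (tb - algebraMap k κ c) ≤ 1) →
      ∃ s : Finset (Place k κ), s.card = Module.finrank k⟮tb⟯ κ ∧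
        ∀ v : Place k κ, v ∈ s ↔ Ev v tb c

/-- [IntIff] `B = ⋂_{v finite} O_v`. -/
def Stmt_IntIff : Prop :=
  ∀ (k κ : Type) [Field k] [Field κ] [Algebra k κ] [IsAlgClosed k] (tb : κ), IsSepVar k tb →
    ∀ f : κ, IsInt k tb f ↔
      ∀ v : Place k κ, tb ∈ v.toValuationSubring → f ∈ v.toValuationSubring

/-- [LInf] `L(m (tb)_∞) = B ∩ tb^m B'`. -/
def Stmt_LInf : Prop :=
  ∀ (k κ : Type) [Field k] [Field κ] [Algebra k κ] [IsAlgClosed k] (tb : κ), IsSepVar k tb →
    ∀ D : Divisor k κ, IsPoleDiv tb D → ∀ (m : ℕ) (f : κ),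
      f ∈ riemannRochSpace (m • D) ↔ IsInt k tb f ∧ IsInt k tb⁻¹ (f * tb⁻¹ ^ m)

/-- [PtPlace] a point of `Spec B` (a "character" `χ` of `B`) is a finite place. -/
def Stmt_PtPlace : Prop :=
  ∀ (k κ : Type) [Field k] [Field κ] [Algebra k κ] [IsAlgClosed k] (tb : κ), IsSepVar k tb →
    ∀ χ : κ → k, (∀ c : k, χ (algebraMap k κ c) = c) →
      (∀ y z : κ, IsInt k tb y → IsInt k tb z →
        χ (y + z) = χ y + χ z ∧ χ (y * z) = χ y * χ z) →
      ∃ v : Place k κ, ∀ y : κ, IsInt k tb y → Ev v y (χ y)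

/-- [PlaceExt] a finite place is determined by the values of the elements of `B`. -/
def Stmt_PlaceExt : Prop :=
  ∀ (k κ : Type) [Field k] [Field κ] [Algebra k κ] [IsAlgClosed k] (tb : κ), IsSepVar k tb →
    ∀ v v' : Place k κ, tb ∈ v.toValuationSubring →
      (∀ (y : κ) (c : k), IsInt k tb y → Ev v y c → Ev v' y c) → v = v'

/-- [LocFrac] the local ring of a finite place is a localisation of `B`; uniformisers in `B`. -/
def Stmt_LocFrac : Prop :=
  ∀ (k κ : Type) [Field k] [Field κ] [Algebra k κ] [IsAlgClosed k] (tb : κ), IsSepVar k tb →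
    ∀ v : Place k κ, tb ∈ v.toValuationSubring →
      (∀ f : κ, f ∈ v.toValuationSubring → ∃ a b : κ, IsInt k tb a ∧ IsInt k tb b ∧
        v.ord b = 0 ∧ b ≠ 0 ∧ f = a / b) ∧
      ∃ ϖ : κ, IsInt k tb ϖ ∧ v.ord ϖ = 1

/-- [CRT] approximation at finitely many finite places by elements of `B`. -/
def Stmt_CRT : Prop :=
  ∀ (k κ : Type) [Field k] [Field κ] [Algebra k κ] [IsAlgClosed k] (tb : κ), IsSepVar k tb →
    ∀ (s : Finset (Place k κ)), (∀ v ∈ s, tb ∈ v.toValuationSubring) →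
    ∀ (a : Place k κ → κ), (∀ v ∈ s, IsInt k tb (a v)) → ∀ m : ℕ,
      ∃ y : κ, IsInt k tb y ∧ ∀ v ∈ s, y - a v = 0 ∨ (m : ℤ) ≤ v.ord (y - a v)

end Fermat.Agent.FF19.Kap
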