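import Fermat.Agent.FF19.Kap.Interface

/-!
# FF19 / KAP : the ring `B = S24.intRing k x` for a separating variable, fundamental identity
-/

set_option autoImplicit false

namespace Fermat.Agent.FF19.Kap

open AlgebraicCurve IntermediateField Polynomial IsDedekindDomain
open Fermat.Agent.S24
open scoped IntermediateField.algebraAdjoinAdjoin

variable {k κ : Type*} [Field k] [Field κ] [Algebra k κ]

theorem Fund_isDedekindDomain {x : κ} (h : IsSepVar k x) : IsDedekindDomain (intRing k x) := by
  have := polyRing_isPrincipalIdealRing h.trans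
  have := h.fin
  have := h.sep
  exact integralClosure.isDedekindDomain (polyRing k x) k⟮x⟯ κ

theorem Fund_isFractionRing {x : κ} (h : IsSepVar k x) : IsFractionRing (intRing k x) κ := by
  have := h.fin
  exact intRing_isFractionRing (K := k) x

theorem Fund_finite {x : κ} (h : IsSepVar k x) : Module.Finite (polyRing k x) (intRing k x) := by
  have := polyRing_isPrincipalIdealRing h.trans
  have := h.fin
  have := h.sep
  exact IsIntegralClosure.finite (polyRing k x) k⟮x⟯ κ (intRing k x)

theorem Fund_free {x : κ} (h : IsSepVar k x) : Module.Free (polyRing k x) (intRing k x) := by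
  have := polyRing_isPrincipalIdealRing h.trans
  have := h.fin
  have := h.sep
  exact IsIntegralClosure.module_free (polyRing k x) k⟮x⟯ κ (intRing k x)

theorem Fund_finrank {x : κ} (h : IsSepVar k x) :
    Module.finrank (polyRing k x) (intRing k x) = Module.finrank k⟮x⟯ κ := by
  have := polyRing_isPrincipalIdealRing h.trans
  have := h.fin
  have := h.sep
  exact IsIntegralClosure.rank (polyRing k x) k⟮x⟯ κ (intRing k x)

theorem Fund_mem_intRing_iff (x y : κ) : y ∈ intRing k x ↔ INJ.IsInt k x y := Iff.rfl

theorem Fund_exists_sum [IsAlgClosed k] {x : κ} (h : IsSepVar k x) :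
    ∃ hfin : (zeroPlaces (K := k) x).Finite,
      ∑ v ∈ hfin.toFinset, v.ord x = (Module.finrank k⟮x⟯ κ : ℤ) := by
  have hx := h.trans
  have := Fund_isDedekindDomain h
  have := Fund_isFractionRing h
  have := Fund_finite h
  have := Fund_free h
  have hx0 : x ≠ 0 := fun h => hx (h ▸ isAlgebraic_zero)
  have key := sum_ord_zeroPlaces_abstract (K := k) (A := polyRing k x) (B := intRing k x) (F := κ)
    (xPoly k x) (xIdeal_isMaximal hx) (fun h => hx0 (congrArg Subtype.val h))
    (by
      intro y
      obtain ⟨a, rfl⟩ := Ideal.Quotient.mk_surjective y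
      obtain ⟨c, hc⟩ := exists_sub_algebraMap_mem_xIdeal x a
      exact ⟨c, ((Ideal.Quotient.eq).mpr hc).symm⟩)
    (fun v hv b => intRing_le_valuationSubring v (mem_of_ord_nonneg v hx0 (le_of_lt hv)) b)
  rw [Fund_finrank h] at key
  exact key

theorem stmt_Fund : Stmt_Fund := fun _ _ _ _ _ _ _ h => Fund_exists_sum h

end Fermat.Agent.FF19.Kap
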