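/-
TEAM FF19 -> S19, block KAP, KAP-3 (task 1794; helper4 as shadow): every nonzero function has a divisor of degree `0`.
-/
import Fermat.Agent.FF19.Kap.Fund

set_option autoImplicit false

namespace Fermat.Agent.FF19.Kap

open AlgebraicCurve IntermediateField
open Fermat.Agent.S24 (zeroPlaces)

/-- step 1: separating variables. -/
theorem D0_sep (hS : Stmt_Shift) {k κ : Type} [Field k] [Field κ] [Algebra k κ] [IsAlgClosed k]
    {x : κ} (h : IsSepVar k x) :
    ∃ E : Divisor k κ, (∀ v : Place k κ, E v = v.ord x) ∧ Divisor.degree E = 0 := by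
  obtain ⟨-, hi, hrank⟩ := hS k κ x h
  obtain ⟨hfin1, h1⟩ := Fund_exists_sum h
  obtain ⟨hfin2, h2⟩ := Fund_exists_sum hi
  have hfin : {v : Place k κ | v.ord x ≠ 0}.Finite := by
    refine (hfin1.union hfin2).subset fun v hv => ?_
    simp only [Set.mem_ofPred_eq, Set.mem_union, zeroPlaces, Place.ord_inv] at hv ⊢
    omega
  let E : Divisor k κ := Finsupp.ofSupportFinite (fun v => v.ord x) hfin
  have hE : ∀ v : Place k κ, E v = v.ord x := fun v => rfl
  have := h.fin
  refine ⟨E, hE, S24.degree_eq_zero_of_sum_zeroPlaces x E hE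
    (fun v => S24.place_deg_eq_one x h.trans v) (Module.finrank k⟮x⟯ κ : ℤ) hfin1 hfin2 h1 ?_⟩
  rw [h2, hrank]

/-- **KAP-3** -/
theorem stmt_Deg0 (hG : Stmt_SepGen) (hS : Stmt_Shift) : Stmt_Deg0 := by
  intro k κ _ _ _ _ tb h
  refine ⟨fun f hf => ?_⟩
  rcases hG k κ tb h f hf with h1 | h1
  · exact D0_sep hS h1
  · obtain ⟨E1, hE1, hd1⟩ := D0_sep hS h1
    obtain ⟨E2, hE2, hd2⟩ := D0_sep hS h
    have htb : tb ≠ 0 := fun h0 => h.trans (h0 ▸ isAlgebraic_zero)
    refine ⟨E1 - E2, fun v => ?_, ?_⟩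
    · rw [Finsupp.sub_apply, hE1, hE2, Place.ord_mul v hf htb]
      ring
    · rw [map_sub, hd1, hd2, sub_zero]

end Fermat.Agent.FF19.Kap
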