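import Fermat.Agent.FF19.Kap.Fund
import Fermat.Agent.RED.EvBasic

/-!
# FF19 / KAP : the fibres of a separating variable as divisors (task 1796)
-/

set_option autoImplicit false

namespace Fermat.Agent.FF19.Kap

open AlgebraicCurve IntermediateField
open Fermat.Agent.S24 (zeroPlaces)
open Fermat.Agent.INJ (IsInt)
open Fermat.Agent.RED (Ev)

/-- the divisor of zeros of a separating variable. -/
theorem FD_zeroDiv {k κ : Type} [Field k] [Field κ] [Algebra k κ] [IsAlgClosed k] {x : κ}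
    (h : IsSepVar k x) (hdeg : ∀ v : Place k κ, v.deg = 1) :
    ∃ D : Divisor k κ, IsZeroDiv x D ∧ Divisor.degree D = (Module.finrank k⟮x⟯ κ : ℤ) := by
  classical
  obtain ⟨hfin, hsum⟩ := Fund_exists_sum h
  refine ⟨∑ v ∈ hfin.toFinset, Finsupp.single v (v.ord x), fun v => ?_, ?_⟩
  · rw [Finsupp.finsetSum_apply]
    by_cases hv : v ∈ hfin.toFinset
    · rw [Finset.sum_eq_single v]
      · rw [Finsupp.single_eq_same]
        have h0 : 0 < v.ord x := hfin.mem_toFinset.1 hv
        rw [max_eq_right h0.le]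
      · intro b _ hb
        exact Finsupp.single_eq_of_ne (Ne.symm hb)
      · intro h'
        exact absurd hv h'
    · rw [Finset.sum_eq_zero]
      · have h0 : ¬ 0 < v.ord x := fun h' => hv (hfin.mem_toFinset.2 h')
        rw [max_eq_left (not_lt.1 h0)]
      · intro b hb
        refine Finsupp.single_eq_of_ne ?_
        rintro rfl
        exact hv hb
  · rw [map_sum, ← hsum]
    refine Finset.sum_congr rfl fun v _ => ?_
    rw [Divisor.degree_single, hdeg v, Nat.cast_one, mul_one]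

theorem stmt_FibDiv (hS : Stmt_Shift) (hB : Stmt_Basic) : Stmt_FibDiv := by
  intro k κ _ _ _ _ tb h
  obtain ⟨hS1, hS2, hS3⟩ := hS k κ tb h
  have hdeg := (hB k κ tb h).1
  refine ⟨?_, fun c => ?_, fun c v => ?_⟩
  · obtain ⟨D, hD, hDd⟩ := FD_zeroDiv hS2 hdeg
    exact ⟨D, fun v => by rw [hD v, Place.ord_inv], by rw [hDd, hS3]⟩
  · obtain ⟨D, hD, hDd⟩ := FD_zeroDiv (hS1 c).1 hdeg
    exact ⟨D, hD, by rw [hDd, (hS1 c).2]⟩
  · by_cases hv : tb ∈ v.toValuationSubring
    · have h1 := S24.ord_nonneg_of_mem v hv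
      have h2 := S24.ord_nonneg_of_mem v (sub_mem hv (v.algebraMap_mem' c))
      rw [max_eq_left (by omega), max_eq_left (by omega)]
    · have htb0 : tb ≠ 0 := fun h0 => hv (h0 ▸ zero_mem _)
      have h1 : v.ord tb < 0 := by
        by_contra h'
        exact hv (S24.mem_of_ord_nonneg v htb0 (not_lt.1 h'))
      by_cases hc : c = 0
      · rw [hc, map_zero, sub_zero]
      · rw [sub_eq_add_neg, ← map_neg, S24.ord_add_eq_of_lt v htb0
          ((map_ne_zero _).2 (neg_ne_zero.2 hc)) (by rw [S24.ord_algebraMap]; exact h1)]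

theorem stmt_Fibre (hS : Stmt_Shift) (_hB : Stmt_Basic) : Stmt_Fibre := by
  intro k κ _ _ _ _ tb h c hc
  obtain ⟨hS1, -, -⟩ := hS k κ tb h
  obtain ⟨hfin, hsum⟩ := Fund_exists_sum (hS1 c).1
  have hne : tb - algebraMap k κ c ≠ 0 := fun h0 => (hS1 c).1.trans (h0 ▸ isAlgebraic_zero)
  refine ⟨hfin.toFinset, ?_, fun v => ?_⟩
  · have h1 : ∑ v ∈ hfin.toFinset, v.ord (tb - algebraMap k κ c)
        = ∑ _v ∈ hfin.toFinset, (1 : ℤ) :=
      Finset.sum_congr rfl fun v hv => le_antisymm (hc v) (hfin.mem_toFinset.1 hv)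
    rw [h1, Finset.sum_const, (hS1 c).2, nsmul_eq_mul, mul_one] at hsum
    exact_mod_cast hsum
  · rw [hfin.mem_toFinset]
    have h1 : Ev v tb c ↔ Ev v (tb - algebraMap k κ c) 0 := by
      unfold Fermat.Agent.RED.Ev
      rw [map_zero, sub_zero]
    rw [h1, RED.ev_zero_iff_ord hne]
    rfl

end Fermat.Agent.FF19.Kap

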