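import Fermat.Agent.FF19.Kap.Fund
import Fermat.Agent.S24.PlacePrime
import Fermat.Agent.S24.PlaceBasic

/-!
# FF19 / KAP-7 : `B = ⋂_{v finite} O_v` and `L(m (tb)_∞) = B ∩ tb^m B'`
-/

set_option autoImplicit false

namespace Fermat.Agent.FF19.Kap

open AlgebraicCurve IntermediateField Polynomial IsDedekindDomain
open Fermat.Agent.S24
open Fermat.Agent.INJ (IsInt)
open scoped IntermediateField.algebraAdjoinAdjoin

theorem II_self_isInt {k κ : Type*} [Field k] [Field κ] [Algebra k κ] (tb : κ) : IsInt k tb tb :=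
  isIntegral_algebraMap (R := Algebra.adjoin k {tb}) (A := κ) (x := xPoly k tb)

/-- **[IntIff]** -/
theorem stmt_IntIff : Stmt_IntIff := by
  intro k κ _ _ _ _ tb h f
  constructor
  · intro hf v hv
    exact intRing_le_valuationSubring v hv ⟨f, hf⟩
  · intro hf
    have := Fund_isDedekindDomain h
    have := Fund_isFractionRing h
    have key : f ∈ (algebraMap (intRing k tb) κ).range := by
      refine HeightOneSpectrum.mem_integers_of_valuation_le_one (K := κ) f fun P => ?_
      have h1 : tb ∈ (Place.ofHeightOneSpectrum (K := k) (F := κ) P).toValuationSubring := by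
        rw [Place.ofHeightOneSpectrum_toValuationSubring, Valuation.mem_valuationSubring_iff]
        exact P.valuation_le_one (⟨tb, II_self_isInt tb⟩ : intRing k tb)
      have h2 := hf _ h1
      rwa [Place.ofHeightOneSpectrum_toValuationSubring, Valuation.mem_valuationSubring_iff] at h2
    obtain ⟨b, rfl⟩ := key
    exact b.2

/-- **[LInf]** -/
theorem stmt_LInf (hI : Stmt_IntIff) (hS : Stmt_Shift) : Stmt_LInf := by
  intro k κ _ _ _ _ tb h D hD m f
  have htb0 : tb ≠ 0 := fun h0 => h.trans (h0 ▸ isAlgebraic_zero)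
  have hinv : IsSepVar k tb⁻¹ := (hS k κ tb h).2.1
  have hmD : ∀ v : Place k κ, (m • D) v = (m : ℤ) * D v := fun v => by
    rw [Finsupp.smul_apply, nsmul_eq_mul]
  rcases eq_or_ne f 0 with rfl | hf0
  · refine ⟨fun _ => ⟨isIntegral_zero, by rw [zero_mul]; exact isIntegral_zero⟩,
      fun _ => Submodule.zero_mem _⟩
  have hg0 : f * tb⁻¹ ^ m ≠ 0 := mul_ne_zero hf0 (pow_ne_zero _ (inv_ne_zero htb0))
  have hord : ∀ v : Place k κ, v.ord (f * tb⁻¹ ^ m) = v.ord f - (m : ℤ) * v.ord tb := by
    intro v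
    rw [Place.ord_mul v hf0 (pow_ne_zero _ (inv_ne_zero htb0)), ← zpow_natCast, Place.ord_zpow,
      Place.ord_inv]
    ring
  rw [mem_riemannRochSpace_iff]
  constructor
  · intro hf
    have hf' : ∀ v : Place k κ, -((m : ℤ) * D v) ≤ v.ord f := by
      intro v
      rcases hf v with h0 | h1
      · exact absurd h0 hf0
      · rwa [hmD] at h1
    refine ⟨(hI k κ tb h f).2 fun v hv => ?_, (hI k κ tb⁻¹ hinv _).2 fun v hv => ?_⟩
    · have h1 : 0 ≤ v.ord tb := ord_nonneg_of_mem v hv
      have h2 : D v = 0 := by rw [hD v]; exact max_eq_left (by omega)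
      have h3 := hf' v
      rw [h2, mul_zero, neg_zero] at h3
      exact mem_of_ord_nonneg v hf0 h3
    · have h1 : 0 ≤ v.ord tb⁻¹ := ord_nonneg_of_mem v hv
      rw [Place.ord_inv] at h1
      have h2 : D v = -v.ord tb := by rw [hD v]; exact max_eq_right h1
      have h3 := hf' v
      rw [h2] at h3
      refine mem_of_ord_nonneg v hg0 ?_
      rw [hord]
      linarith
  · rintro ⟨h1, h2⟩ v
    right
    rw [hmD]
    have hm0 : (0 : ℤ) ≤ m := Int.natCast_nonneg m
    rcases v.toValuationSubring.mem_or_inv_mem tb with hv | hv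
    · have h3 : 0 ≤ v.ord f := ord_nonneg_of_mem v ((hI k κ tb h f).1 h1 v hv)
      have h4 : 0 ≤ D v := by rw [hD v]; exact le_max_left _ _
      have h5 : 0 ≤ (m : ℤ) * D v := mul_nonneg hm0 h4
      linarith
    · have h3 : 0 ≤ v.ord (f * tb⁻¹ ^ m) :=
        ord_nonneg_of_mem v ((hI k κ tb⁻¹ hinv _).1 h2 v hv)
      rw [hord] at h3
      have h4 : -v.ord tb ≤ D v := by rw [hD v]; exact le_max_right _ _
      have h5 : (m : ℤ) * (-v.ord tb) ≤ (m : ℤ) * D v := mul_le_mul_of_nonneg_left h4 hm0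
      linarith

end Fermat.Agent.FF19.Kap
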