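import Fermat.Agent.FF19.Kap.NSInterface

/-!
# FF19 / KAP-10 : the axioms `NS.PtAx` for `Pts k` (all valuation subrings `≠ ⊤` of `κ` containing `k`)
-/

set_option autoImplicit false

namespace Fermat.Agent.FF19.Kap

open AlgebraicCurve IntermediateField
open Fermat.Agent.INJ (IsInt)
open Fermat.Agent.RED (Ev)

/-- a function regular wherever `u` is regular is integral over `k[u]` (no function field theory). -/
theorem PA_int {k κ : Type*} [Field k] [Field κ] [Algebra k κ] (u h : κ)
    (H : ∀ x ∈ Pts k (κ := κ), u ∈ x → h ∈ x) : IsInt k u h := by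
  by_contra hn
  let R : Subring κ := (integralClosure (Algebra.adjoin k {u}) κ).toSubring
  have hR : IsIntegrallyClosedIn R κ :=
    inferInstanceAs (IsIntegrallyClosedIn (integralClosure (Algebra.adjoin k {u}) κ) κ)
  have hh : h ∉ R := fun hm => hn hm
  obtain ⟨V, hV, hhV⟩ := Subring.exists_le_valuationSubring_of_isIntegrallyClosedIn hh
  have hadj : ∀ a : Algebra.adjoin k {u}, (a : κ) ∈ V := fun a =>
    hV ((integralClosure (Algebra.adjoin k {u}) κ).algebraMap_mem a)
  have hk : ∀ c : k, algebraMap k κ c ∈ V := fun c =>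
    hadj ⟨algebraMap k κ c, (Algebra.adjoin k {u}).algebraMap_mem c⟩
  have hu : u ∈ V := hadj ⟨u, Algebra.subset_adjoin rfl⟩
  have htop : V ≠ ⊤ := by
    rintro rfl
    exact hhV (ValuationSubring.mem_top h)
  exact hhV (H V ⟨hk, htop⟩ hu)

theorem stmt_PtAx (hV : Stmt_ValPlace) (hB : Stmt_Basic) (hR : Stmt_RRS) : Stmt_PtAx := by
  intro k κ _ _ _ _ tb htb
  refine ⟨fun x hx c => hx.1 c, ?_, ?_, PA_int⟩
  · intro x hx f hf
    obtain ⟨v, rfl⟩ := hV k κ tb htb x hx.1 hx.2
    obtain ⟨c, hc⟩ := (hB k κ tb htb).2.1 v f hf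
    exact ⟨c, (ValuationSubring.mem_nonunits_iff _).1 hc⟩
  · intro h H
    have hmem : h ∈ riemannRochSpace (0 : Divisor k κ) := by
      rw [mem_riemannRochSpace_iff]
      intro v
      by_cases h0 : h = 0
      · exact Or.inl h0
      · right
        have := H v.toValuationSubring ⟨v.algebraMap_mem', v.ne_top'⟩
        simpa using Fermat.Agent.S24.ord_nonneg_of_mem v this
    obtain ⟨c, hc⟩ := ((hR k κ tb htb).2.2.1 h).1 hmem
    exact ⟨c, hc.symm⟩

end Fermat.Agent.FF19.Kap
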