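import Fermat.Agent.FF19.Kap.Fund
import Fermat.Agent.RED.EvBasic

/-!
# FF19 / KAP-4 (helper46): elementary facts on the spaces `L(D)` in any characteristic
-/

set_option autoImplicit false

namespace Fermat.Agent.FF19.Kap

open AlgebraicCurve IntermediateField
open Fermat.Agent.S24 Fermat.Agent.RED

variable {k κ : Type*} [Field k] [Field κ] [Algebra k κ]

/-- multiplication by `f` maps `L(D + div f)` into `L(D)`. -/
theorem RR_mul_mem {D E : Divisor k κ} {f : κ} (hf : f ≠ 0) (hE : ∀ v : Place k κ, E v = v.ord f)
    {g : κ} (hg : g ∈ riemannRochSpace (D + E)) : g * f ∈ riemannRochSpace D := by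
  rw [mem_riemannRochSpace_iff] at hg ⊢
  intro v
  rcases hg v with h | h
  · left; rw [h, zero_mul]
  · by_cases hg0 : g = 0
    · left; rw [hg0, zero_mul]
    · right
      rw [v.ord_mul hg0 hf]
      rw [Finsupp.add_apply, hE v] at h
      omega

/-- multiplication by `f⁻¹` maps `L(D)` into `L(D + div f)`. -/
theorem RR_mul_inv_mem {D E : Divisor k κ} {f : κ} (hf : f ≠ 0)
    (hE : ∀ v : Place k κ, E v = v.ord f) {g : κ} (hg : g ∈ riemannRochSpace D) :
    g * f⁻¹ ∈ riemannRochSpace (D + E) := by
  rw [mem_riemannRochSpace_iff] at hg ⊢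
  intro v
  rcases hg v with h | h
  · left; rw [h, zero_mul]
  · by_cases hg0 : g = 0
    · left; rw [hg0, zero_mul]
    · right
      rw [v.ord_mul hg0 (inv_ne_zero hf), v.ord_inv, Finsupp.add_apply, hE v]
      omega

/-- `L(D + div f) ≃ L(D)`. -/
noncomputable def RR_equiv {D E : Divisor k κ} {f : κ} (hf : f ≠ 0)
    (hE : ∀ v : Place k κ, E v = v.ord f) :
    ↥(riemannRochSpace (D + E)) ≃ₗ[k] ↥(riemannRochSpace D) where
  toFun g := ⟨g * f, RR_mul_mem hf hE g.2⟩
  invFun g := ⟨g * f⁻¹, RR_mul_inv_mem hf hE g.2⟩
  map_add' g h := Subtype.ext (by simp [add_mul])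
  map_smul' a g := Subtype.ext (by simp [Algebra.smul_def, mul_assoc])
  left_inv g := Subtype.ext (by simp [mul_assoc, hf])
  right_inv g := Subtype.ext (by simp [mul_assoc, hf])

theorem stmt_RRS (hD : Stmt_Deg0) (hB : Stmt_Basic) : Stmt_RRS := by
  intro k κ _ _ _ _ tb h
  have hP : HasPrincipalDivisors k κ := hD k κ tb h
  obtain ⟨hdeg, hval, -, hinf⟩ := hB k κ tb h
  have hne : Nonempty (Place k κ) := inferInstance
  have hfin : ∀ D : Divisor k κ, Module.Finite k (riemannRochSpace D) :=
    fun D => S27.RA.finite hdeg D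
  refine ⟨hfin, fun D hD => S27.RA.eq_bot_of_degree_neg D hD, fun f => ?_, fun D v => ⟨?_, ?_⟩,
    fun D E f hf hE => (RR_equiv hf hE).finrank_eq⟩
  · constructor
    · intro hf
      obtain ⟨v₀⟩ := hne
      have hreg : f ∈ v₀.toValuationSubring := by
        rcases (mem_riemannRochSpace_iff.mp hf) v₀ with h0 | h0
        · rw [h0]; exact zero_mem _
        · by_cases hf0 : f = 0
          · rw [hf0]; exact zero_mem _
          · exact mem_of_ord_nonneg v₀ hf0 (by simpa using h0)
      obtain ⟨a, ha⟩ := hval v₀ f hreg
      refine ⟨a, ?_⟩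
      have hconst : algebraMap k κ a ∈ riemannRochSpace (0 : Divisor k κ) := by
        rw [mem_riemannRochSpace_iff]
        intro v
        right
        rw [ord_algebraMap]; simp
      have hg : f - algebraMap k κ a ∈ riemannRochSpace (-Finsupp.single v₀ 1 : Divisor k κ) := by
        classical
        have h0 := mem_riemannRochSpace_iff.mp (sub_mem hf hconst)
        rw [mem_riemannRochSpace_iff]
        intro v
        by_cases hz : f - algebraMap k κ a = 0
        · exact Or.inl hz
        · right
          have h1 := (h0 v).resolve_left hz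
          have h2 : 0 < v₀.ord (f - algebraMap k κ a) := by
            rw [← ev_zero_iff_ord hz]
            unfold Fermat.Agent.RED.Ev at ha ⊢
            rwa [map_zero, sub_zero]
          rw [Finsupp.neg_apply, Finsupp.single_apply]
          split_ifs with hv
          · subst hv; omega
          · simpa using h1
      rw [S27.RA.eq_bot_of_degree_neg _
        (by rw [map_neg, S27.RA.degree_single_one hdeg]; norm_num),
        Submodule.mem_bot, sub_eq_zero] at hg
      exact hg.symm
    · rintro ⟨a, rfl⟩
      rw [mem_riemannRochSpace_iff]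
      intro v
      right
      rw [ord_algebraMap]; simp
  · have := hfin (D + Finsupp.single v 1)
    exact Submodule.finrank_mono (S27.RA.le_add_single D v)
  · exact (S27.RA.step hdeg D v (hfin D)).2

end Fermat.Agent.FF19.Kap
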