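import Fermat.Agent.FF19.Kap.Fund

/-!
# FF19 / KAP-1 : `Stmt_SepGen` (task 1792, helper76)

Every nonzero `x` of a separably generated function field `κ / k` is a separating variable, or `x * tb` is.
Proof with Kaehler differentials: `Ω[κ⁄k]` is spanned by `D tb ≠ 0`.
-/

set_option autoImplicit false
set_option linter.style.haveILetI false

namespace Fermat.Agent.FF19.Kap

open AlgebraicCurve IntermediateField

section

variable {k κ : Type} [Field k] [Field κ] [Algebra k κ]

/-- a `k`-derivation killing `y` kills `k(y)`. -/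
theorem SG_der_adjoin {V : Type} [AddCommGroup V] [Module κ V] [Module k V] [IsScalarTower k κ V]
    (δ : Derivation k κ V) (y : κ) (hy : δ y = 0) : ∀ a ∈ k⟮y⟯, δ a = 0 := by
  intro a ha
  induction ha using IntermediateField.adjoin_induction with
  | mem x hx =>
    rw [Set.mem_singleton_iff] at hx
    rw [hx, hy]
  | algebraMap x => exact δ.map_algebraMap x
  | add x z _ _ hx hz => rw [map_add, hx, hz, add_zero]
  | inv x _ hx =>
    by_cases h0 : x = 0
    · rw [h0, inv_zero, map_zero]
    · have h1 : δ (x * x⁻¹) = 0 := by rw [mul_inv_cancel₀ h0]; exact δ.map_one_eq_zero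
      rw [δ.leibniz, hx, smul_zero, add_zero] at h1
      exact (smul_eq_zero.1 h1).resolve_left h0
  | mul x z _ _ hx hz => rw [δ.leibniz, hx, hz, smul_zero, smul_zero, add_zero]

/-- (A) if `κ / k(y)` is separable, a `k`-derivation killing `y` is zero. -/
theorem SG_der_zero {V : Type} [AddCommGroup V] [Module κ V] [Module k V] [IsScalarTower k κ V]
    (δ : Derivation k κ V) (y : κ) (hsep : Algebra.IsSeparable k⟮y⟯ κ) (hy : δ y = 0) :
    ∀ z : κ, δ z = 0 := by
  have h0 := SG_der_adjoin δ y hy
  let δ' : Derivation k⟮y⟯ κ V :=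
    { toFun := δ
      map_add' := fun a b => map_add δ a b
      map_smul' := fun a z => by
        have ha : δ (algebraMap k⟮y⟯ κ a) = 0 := h0 _ a.2
        show δ (a • z) = a • δ z
        rw [Algebra.smul_def, δ.leibniz, ha, smul_zero, add_zero, algebraMap_smul]
      map_one_eq_zero' := δ.map_one_eq_zero
      leibniz' := fun a b => δ.leibniz a b }
  haveI : Algebra.FormallyUnramified k⟮y⟯ κ := Algebra.FormallyUnramified.of_isSeparable _ _
  intro z
  have h1 : δ'.liftKaehlerDifferential (KaehlerDifferential.D k⟮y⟯ κ z) = δ' z :=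
    δ'.liftKaehlerDifferential_comp_D z
  have h2 : KaehlerDifferential.D k⟮y⟯ κ z = 0 := Subsingleton.elim _ _
  rw [h2, map_zero] at h1
  exact h1.symm

/-- (B) `Ω[κ⁄k]` is spanned by `D y`. -/
theorem SG_span (y : κ) (hsep : Algebra.IsSeparable k⟮y⟯ κ) :
    Submodule.span κ {KaehlerDifferential.D k κ y} = ⊤ := by
  set N : Submodule κ (Ω[κ⁄k]) := Submodule.span κ {KaehlerDifferential.D k κ y} with hN
  let δ : Derivation k κ (Ω[κ⁄k] ⧸ N) := N.mkQ.compDer (KaehlerDifferential.D k κ)
  have hy : δ y = 0 := by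
    show N.mkQ (KaehlerDifferential.D k κ y) = 0
    rw [Submodule.mkQ_apply, Submodule.Quotient.mk_eq_zero]
    exact Submodule.subset_span rfl
  have h0 := SG_der_zero δ y hsep hy
  rw [eq_top_iff, ← KaehlerDifferential.span_range_derivation, Submodule.span_le]
  rintro _ ⟨z, rfl⟩
  have h1 : N.mkQ (KaehlerDifferential.D k κ z) = 0 := h0 z
  rwa [Submodule.mkQ_apply, Submodule.Quotient.mk_eq_zero] at h1

/-- `κ` is essentially of finite type over `k`. -/
theorem SG_ess (y : κ) (hfin : FiniteDimensional k⟮y⟯ κ) : Algebra.EssFiniteType k κ := by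
  haveI : Algebra.EssFiniteType k k⟮y⟯ :=
    IntermediateField.essFiniteType_iff.2 ⟨{y}, by rw [Finset.coe_singleton]⟩
  haveI : Algebra.EssFiniteType k⟮y⟯ κ := inferInstance
  exact Algebra.EssFiniteType.comp k k⟮y⟯ κ

/-- (C) `D y ≠ 0`. -/
theorem SG_D_ne (y : κ) (h : IsSepVar k y) : KaehlerDifferential.D k κ y ≠ 0 := by
  intro h0
  have hs := SG_span y h.sep
  rw [h0, Submodule.span_singleton_eq_bot.2 rfl] at hs
  haveI : Subsingleton (Ω[κ⁄k]) := (Submodule.subsingleton_iff κ).1 (subsingleton_of_bot_eq_top hs)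
  haveI : Algebra.FormallyUnramified k κ := ⟨inferInstance⟩
  haveI := SG_ess y h.fin
  have hsep : Algebra.IsSeparable k κ := (Algebra.FormallyUnramified.iff_isSeparable k κ).1 inferInstance
  exact h.trans (Algebra.IsSeparable.isSeparable k y).isIntegral.isAlgebraic

/-- (D) `D x ≠ 0` implies that `x` is a separating variable. -/
theorem SG_sep_of_D_ne [IsAlgClosed k] (tb : κ) (h : IsSepVar k tb) (x : κ)
    (hx : KaehlerDifferential.D k κ x ≠ 0) : IsSepVar k x := by
  have htr : Transcendental k x := by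
    intro halg
    have hint : IsIntegral k x := halg.isIntegral
    have hdeg : (minpoly k x).degree = 1 :=
      IsAlgClosed.degree_eq_one_of_irreducible k (minpoly.irreducible hint)
    obtain ⟨c, hc⟩ := minpoly.mem_range_of_degree_eq_one k x hdeg
    apply hx
    rw [← hc]
    exact (KaehlerDifferential.D k κ).map_algebraMap c
  haveI := h.fin
  have hfin : FiniteDimensional k⟮x⟯ κ :=
    S24.finiteDimensional_adjoin_simple_of_transcendental tb h.trans x htr
  refine ⟨htr, hfin, ?_⟩
  -- the universal derivation of `κ / k(x)`, restricted to `k`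
  let δ : Derivation k κ (Ω[κ⁄k⟮x⟯]) := (KaehlerDifferential.D k⟮x⟯ κ).restrictScalars k
  have hδx : δ x = 0 := by
    show KaehlerDifferential.D k⟮x⟯ κ x = 0
    exact (KaehlerDifferential.D k⟮x⟯ κ).map_algebraMap (⟨x, mem_adjoin_simple_self k x⟩ : k⟮x⟯)
  have hmem : KaehlerDifferential.D k κ x ∈ Submodule.span κ {KaehlerDifferential.D k κ tb} := by
    rw [SG_span tb h.sep]; exact Submodule.mem_top
  obtain ⟨c, hc⟩ := Submodule.mem_span_singleton.1 hmem
  have hc0 : c ≠ 0 := by
    rintro rfl
    rw [zero_smul] at hc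
    exact hx hc.symm
  have h1 : δ.liftKaehlerDifferential (KaehlerDifferential.D k κ x) = δ x :=
    δ.liftKaehlerDifferential_comp_D x
  rw [← hc, map_smul, δ.liftKaehlerDifferential_comp_D, hδx] at h1
  have hδtb : δ tb = 0 := (smul_eq_zero.1 h1).resolve_left hc0
  have h0 := SG_der_zero δ tb h.sep hδtb
  have hbot : (⊤ : Submodule κ (Ω[κ⁄k⟮x⟯])) = ⊥ := by
    rw [← KaehlerDifferential.span_range_derivation, Submodule.span_eq_bot]
    rintro _ ⟨z, rfl⟩
    exact h0 z
  haveI : Subsingleton (Ω[κ⁄k⟮x⟯]) :=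
    (Submodule.subsingleton_iff κ).1 (subsingleton_of_bot_eq_top hbot.symm)
  haveI : Algebra.FormallyUnramified k⟮x⟯ κ := ⟨inferInstance⟩
  exact (Algebra.FormallyUnramified.iff_isSeparable k⟮x⟯ κ).1 inferInstance

end

theorem stmt_SepGen : Stmt_SepGen := by
  intro k κ _ _ _ _ tb h x hx
  by_cases hD : KaehlerDifferential.D k κ x = 0
  · right
    refine SG_sep_of_D_ne tb h (x * tb) ?_
    rw [(KaehlerDifferential.D k κ).leibniz, hD, smul_zero, add_zero]
    exact smul_ne_zero hx (SG_D_ne tb h)
  · left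
    exact SG_sep_of_D_ne tb h x hD

end Fermat.Agent.FF19.Kap
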