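import Fermat.Agent.FF19.Kap.Fund
import Fermat.Agent.RED.EvBasic

/-!
# FF19 / KAP-2 : `Stmt_Shift`, `Stmt_Basic`
-/

set_option autoImplicit false

namespace Fermat.Agent.FF19.Kap

open AlgebraicCurve IntermediateField
open Fermat.Agent.S24 (zeroPlaces)
open Fermat.Agent.INJ (IsInt)
open Fermat.Agent.RED (Ev)

section

variable {k κ : Type*} [Field k] [Field κ] [Algebra k κ]

theorem SH_transport {K1 K2 : IntermediateField k κ} (h : K1 = K2) :
    (FiniteDimensional K1 κ → FiniteDimensional K2 κ) ∧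
    (Algebra.IsSeparable K1 κ → Algebra.IsSeparable K2 κ) ∧
    Module.finrank K1 κ = Module.finrank K2 κ := by
  subst h
  exact ⟨id, id, rfl⟩

theorem SH_adjoin_sub (tb : κ) (c : k) : k⟮tb - algebraMap k κ c⟯ = k⟮tb⟯ := by
  apply le_antisymm
  · rw [adjoin_simple_le_iff]
    exact sub_mem (mem_adjoin_simple_self k tb) (IntermediateField.algebraMap_mem _ c)
  · rw [adjoin_simple_le_iff]
    have h := add_mem (mem_adjoin_simple_self k (tb - algebraMap k κ c))
      (IntermediateField.algebraMap_mem k⟮tb - algebraMap k κ c⟯ c)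
    simpa using h

theorem SH_transcendental_sub {tb : κ} (h : Transcendental k tb) (c : k) :
    Transcendental k (tb - algebraMap k κ c) := by
  intro halg
  apply h
  have := halg.add (isAlgebraic_algebraMap (A := κ) c)
  simpa using this

end

theorem stmt_Shift : Stmt_Shift := by
  intro k κ _ _ _ tb h
  refine ⟨fun c => ?_, ?_, ?_⟩
  · obtain ⟨h1, h2, h3⟩ := SH_transport (SH_adjoin_sub (k := k) tb c).symm
    exact ⟨⟨SH_transcendental_sub h.trans c, h1 h.fin, h2 h.sep⟩, h3.symm⟩
  · obtain ⟨h1, h2, -⟩ := SH_transport (S24.adjoin_simple_inv_eq (K := k) tb).symm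
    exact ⟨S24.transcendental_inv_of_transcendental h.trans, h1 h.fin, h2 h.sep⟩
  · exact (SH_transport (S24.adjoin_simple_inv_eq (K := k) tb)).2.2

theorem stmt_Basic (hS : Stmt_Shift) : Stmt_Basic := by
  intro k κ _ _ _ _ tb h
  have hfin := h.fin
  have hzero : ∀ c : k, ∃ v : Place k κ, Ev v tb c := by
    intro c
    obtain ⟨hc, hrk⟩ := (hS k κ tb h).1 c
    obtain ⟨hf, hsum⟩ := Fund_exists_sum hc
    have hpos : 0 < Module.finrank k⟮tb - algebraMap k κ c⟯ κ := by
      rw [hrk]
      exact Module.finrank_pos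
    have hne : hf.toFinset.Nonempty := by
      by_contra hemp
      rw [Finset.not_nonempty_iff_eq_empty] at hemp
      rw [hemp, Finset.sum_empty] at hsum
      have : (0 : ℤ) < (Module.finrank k⟮tb - algebraMap k κ c⟯ κ : ℤ) := by exact_mod_cast hpos
      omega
    obtain ⟨v, hv⟩ := hne
    have hv' : 0 < v.ord (tb - algebraMap k κ c) := hf.mem_toFinset.1 hv
    have hne0 : tb - algebraMap k κ c ≠ 0 := fun h0 => hc.trans (h0 ▸ isAlgebraic_zero)
    exact ⟨v, RED.ev_zero_iff.1 ((RED.ev_zero_iff_ord hne0).2 hv')⟩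
  refine ⟨fun v => S24.place_deg_eq_one tb h.trans v,
    fun v f hf => RED.ev_exists tb h.trans hf, hzero, ?_⟩
  choose f hf using hzero
  refine Infinite.of_injective f fun c c' hcc => ?_
  have h1 := hf c
  rw [hcc] at h1
  exact RED.ev_unique h1 (hf c')

end Fermat.Agent.FF19.Kap
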