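import Fermat.Agent.FF19.Kap.NSInterface
import Fermat.Agent.RED.EvBasic

/-!
# FF19 / KAP-11 : all but finitely many fibres are unramified, in the sense of NS-ABS (`Stmt_UnrFin`)
-/

set_option autoImplicit false

namespace Fermat.Agent.FF19.Kap

open AlgebraicCurve IntermediateField
open Fermat.Agent.INJ (IsInt)
open Fermat.Agent.RED (Ev)

section

variable {k κ : Type} [Field k] [Field κ] [Algebra k κ]

/-- `valuation < 1` is membership in the nonunits. -/
theorem UF_lt_one_iff (x : ValuationSubring κ) (f : κ) : x.valuation f < 1 ↔ f ∈ x.nonunits :=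
  (ValuationSubring.mem_nonunits_iff (A := x)).symm

theorem UF_lt_one_iff_ord (v : Place k κ) {f : κ} (hf : f ≠ 0) :
    v.toValuationSubring.valuation f < 1 ↔ 0 < v.ord f := by
  rw [UF_lt_one_iff, ← Fermat.Agent.RED.ev_zero_iff_ord hf, Fermat.Agent.RED.ev_zero_iff]

end

theorem stmt_UnrFin (hV : Stmt_ValPlace) (hU : Stmt_Unram) (hF : Stmt_Fibre) : Stmt_UnrFin := by
  classical
  intro k κ _ _ _ _ tb htb
  refine (hU k κ tb htb).subset ?_
  intro c hc
  by_contra hno
  apply hc
  have hle : ∀ v : Place k κ, v.ord (tb - algebraMap k κ c) ≤ 1 := by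
    intro v
    by_contra h
    exact hno ⟨v, by omega⟩
  have hne : tb - algebraMap k κ c ≠ 0 := by
    intro h0
    have h1 : tb = algebraMap k κ c := sub_eq_zero.1 h0
    exact htb.trans (h1 ▸ isAlgebraic_algebraMap c)
  obtain ⟨s0, hcard, hmem⟩ := hF k κ tb htb c hle
  have hEv : ∀ v : Place k κ, Ev v tb c ↔
      v.toValuationSubring.valuation (tb - algebraMap k κ c) < 1 := by
    intro v
    rw [UF_lt_one_iff]
    exact Iff.rfl
  refine ⟨s0.image Place.toValuationSubring, ?_, ?_, ?_, ?_⟩
  · intro x hx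
    obtain ⟨v, -, rfl⟩ := Finset.mem_image.1 hx
    exact ⟨v.algebraMap_mem', v.ne_top'⟩
  · rw [Finset.card_image_of_injective _ Place.toValuationSubring_injective, hcard]
  · intro x hx
    obtain ⟨v, rfl⟩ := hV k κ tb htb x hx.1 hx.2
    rw [← hEv v, ← hmem v]
    constructor
    · intro h
      obtain ⟨v', hv', he⟩ := Finset.mem_image.1 h
      rwa [← Place.toValuationSubring_injective he]
    · intro h
      exact Finset.mem_image_of_mem _ h
  · intro x hx f hf
    obtain ⟨v, hv, rfl⟩ := Finset.mem_image.1 hx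
    by_cases hf0 : f = 0
    · rw [hf0, zero_div]
      exact v.toValuationSubring.zero_mem
    have h1 : 0 < v.ord f := (UF_lt_one_iff_ord v hf0).1 hf
    have h2 : v.ord (tb - algebraMap k κ c) ≤ 1 := hle v
    have hq : f / (tb - algebraMap k κ c) ≠ 0 := div_ne_zero hf0 hne
    rw [Fermat.Agent.S24.mem_iff_ord_nonneg v hq, div_eq_mul_inv,
      v.ord_mul hf0 (inv_ne_zero hne), v.ord_inv]
    omega

end Fermat.Agent.FF19.Kap
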