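import Fermat.Agent.FF19.Kap.Fund

/-!
# FF19 / KAP-6 : all but finitely many fibres of a separating variable are unramified
(route: the different ideal of `B / k[tb]`)
-/

set_option autoImplicit false

namespace Fermat.Agent.FF19.Kap

open AlgebraicCurve IntermediateField Polynomial IsDedekindDomain
open Fermat.Agent.S24
open scoped IntermediateField.algebraAdjoinAdjoin nonZeroDivisors

section Abstract

attribute [local instance] FractionRing.liftAlgebra FractionRing.isScalarTower_liftAlgebra

variable {A B K L : Type*} [CommRing A] [IsDedekindDomain A] [CommRing B] [IsDedekindDomain B]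
  [Field K] [Field L] [Algebra A K] [IsFractionRing A K] [Algebra B L] [IsFractionRing B L]
  [Algebra A B] [Algebra K L] [Algebra A L] [IsScalarTower A K L] [IsScalarTower A B L]
  [Module.Finite A B] [Module.IsTorsionFree A B]

variable (A B K L) in
theorem UR_isSeparable [Algebra.IsSeparable K L] :
    Algebra.IsSeparable (FractionRing A) (FractionRing B) := by
  have H : RingHom.comp (algebraMap (FractionRing A) (FractionRing B))
      ↑(FractionRing.algEquiv A K).symm.toRingEquiv =
        RingHom.comp ↑(FractionRing.algEquiv B L).symm.toRingEquiv (algebraMap K L) := by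
    apply IsLocalization.ringHom_ext A⁰
    ext
    simp only [RingHom.coe_comp, RingHom.coe_coe,
      AlgEquiv.coe_ringEquiv, Function.comp_apply, AlgEquiv.commutes,
      ← IsScalarTower.algebraMap_apply]
    rw [IsScalarTower.algebraMap_apply A B L, AlgEquiv.commutes, ← IsScalarTower.algebraMap_apply]
  exact Algebra.IsSeparable.of_equiv_equiv _ _ H

variable (A B K L) in
/-- finitely many ramified primes -/
theorem UR_abstract [Algebra.IsSeparable K L] :
    {P : HeightOneSpectrum B | ∃ p : Ideal A, p.IsMaximal ∧ p ≠ ⊥ ∧
      P.asIdeal ^ 2 ∣ p.map (algebraMap A B)}.Finite := by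
  have := UR_isSeparable A B K L
  have h0 : differentIdeal A B ≠ 0 := differentIdeal_ne_bot
  refine (Ideal.finite_factors h0).subset ?_
  rintro P ⟨p, hp, hp0, hP⟩
  simpa using pow_sub_one_dvd_differentIdeal A P.asIdeal 2 hp0 hP

end Abstract

section Concrete

variable {k κ : Type*} [Field k] [Field κ] [Algebra k κ]

/-- `tb - c` as an element of `k[tb]`. -/
noncomputable def UR_fA (tb : κ) (c : k) : polyRing k tb :=
  xPoly k tb - algebraMap k (polyRing k tb) c

theorem UR_fA_prime {tb : κ} (hx : Transcendental k tb) (c : k) : Prime (UR_fA tb c) := by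
  have e : Polynomial.algEquivOfTranscendental k tb hx (X - C c) = UR_fA tb c := by
    rw [map_sub, algEquivOfTranscendental_X' hx, UR_fA]
    congr 1
    exact (Polynomial.algEquivOfTranscendental k tb hx).commutes c
  rw [← e]
  exact (MulEquiv.prime_iff (Polynomial.algEquivOfTranscendental k tb hx).toMulEquiv).mpr
    (Polynomial.prime_X_sub_C c)

theorem UR_coe_fA (tb : κ) (c : k) :
    algebraMap (intRing k tb) κ (algebraMap (polyRing k tb) (intRing k tb) (UR_fA tb c))
      = tb - algebraMap k κ c := rfl

theorem UR_main {tb : κ} (h : IsSepVar k tb) :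
    {c : k | ∃ v : Place k κ, 2 ≤ v.ord (tb - algebraMap k κ c)}.Finite := by
  classical
  have := polyRing_isPrincipalIdealRing h.trans
  have := Fund_isDedekindDomain h
  have := Fund_isFractionRing h
  have := Fund_finite h
  have := h.sep
  have hfin := UR_abstract (polyRing k tb) (intRing k tb) k⟮tb⟯ κ
  refine (hfin.biUnion (t := fun P => {c : k |
    algebraMap (polyRing k tb) (intRing k tb) (UR_fA tb c) ∈ P.asIdeal}) ?_).subset ?_
  · intro P _
    apply Set.Subsingleton.finite
    intro c hc c' hc'
    by_contra hne
    have h1 : algebraMap (polyRing k tb) (intRing k tb) (UR_fA tb c')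
        - algebraMap (polyRing k tb) (intRing k tb) (UR_fA tb c) ∈ P.asIdeal :=
      P.asIdeal.sub_mem hc' hc
    have h2 : algebraMap (polyRing k tb) (intRing k tb) (UR_fA tb c')
        - algebraMap (polyRing k tb) (intRing k tb) (UR_fA tb c)
        = algebraMap k (intRing k tb) (c - c') := by
      apply Subtype.ext
      show (tb - algebraMap k κ c') - (tb - algebraMap k κ c) = algebraMap k κ (c - c')
      rw [map_sub]
      ring
    rw [h2] at h1
    have h3 : IsUnit (algebraMap k (intRing k tb) (c - c')) :=
      (isUnit_iff_ne_zero.2 (sub_ne_zero.2 hne)).map _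
    exact P.isPrime.ne_top (P.asIdeal.eq_top_of_isUnit_mem h1 h3)
  · rintro c ⟨v, hv⟩
    have hf0 : tb - algebraMap k κ c ≠ 0 := by
      intro h0
      rw [h0, Place.ord_zero] at hv
      omega
    have hfv : tb - algebraMap k κ c ∈ v.toValuationSubring := mem_of_ord_nonneg v hf0 (by omega)
    have htb : tb ∈ v.toValuationSubring := by
      have := v.toValuationSubring.add_mem _ _ hfv (v.algebraMap_mem' c)
      simpa using this
    obtain ⟨P, rfl⟩ := exists_heightOneSpectrum_of_le (R := intRing k tb) v
      (fun r => intRing_le_valuationSubring v htb r)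
    have hr0 : algebraMap (polyRing k tb) (intRing k tb) (UR_fA tb c) ≠ 0 := by
      intro h0
      apply hf0
      rw [← UR_coe_fA, h0, map_zero]
    rw [← UR_coe_fA, ord_algebraMap_eq_multiplicity P _ hr0] at hv
    have hv' : 2 ≤ multiplicity P.asIdeal
        (Ideal.span {algebraMap (polyRing k tb) (intRing k tb) (UR_fA tb c)}) := by
      exact_mod_cast hv
    have hdvd : P.asIdeal ^ 2 ∣
        Ideal.span {algebraMap (polyRing k tb) (intRing k tb) (UR_fA tb c)} :=
      pow_dvd_of_le_multiplicity hv'
    have hmap : (Ideal.span {UR_fA tb c}).map (algebraMap (polyRing k tb) (intRing k tb))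
        = Ideal.span {algebraMap (polyRing k tb) (intRing k tb) (UR_fA tb c)} := by
      rw [Ideal.map_span, Set.image_singleton]
    refine Set.mem_biUnion (x := P) ⟨Ideal.span {UR_fA tb c},
      PrincipalIdealRing.isMaximal_of_irreducible (UR_fA_prime h.trans c).irreducible, ?_,
      hmap ▸ hdvd⟩ ?_
    · rw [Ne, Ideal.span_singleton_eq_bot]
      exact (UR_fA_prime h.trans c).ne_zero
    · have h1 : Ideal.span {algebraMap (polyRing k tb) (intRing k tb) (UR_fA tb c)}
          ≤ P.asIdeal ^ 2 := Ideal.le_of_dvd hdvd
      exact Ideal.pow_le_self (by norm_num) (h1 (Ideal.mem_span_singleton_self _))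

end Concrete

theorem stmt_Unram : Stmt_Unram := fun _ _ _ _ _ _ _ h => UR_main h

end Fermat.Agent.FF19.Kap
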