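import Fermat.Agent.FF19.Kap.Fund

/-!
# FF19 / KAP : (K1') every valuation subring `≠ ⊤` of `κ` containing `k` is a place
-/

set_option autoImplicit false

namespace Fermat.Agent.FF19.Kap

open AlgebraicCurve IntermediateField Polynomial IsDedekindDomain
open Fermat.Agent.S24

/-- [ValPlace] = (K1'): a valuation subring `≠ ⊤` of `κ` containing `k` is (the ring of) a place. -/
def Stmt_ValPlace : Prop :=
  ∀ (k κ : Type) [Field k] [Field κ] [Algebra k κ] (tb : κ), IsSepVar k tb →
    ∀ x : ValuationSubring κ, (∀ c : k, algebraMap k κ c ∈ x) → x ≠ ⊤ →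
      ∃ v : Place k κ, v.toValuationSubring = x

section Abstract

variable {F : Type*} [Field F]
variable {R : Type*} [CommRing R] [IsDedekindDomain R] [Algebra R F] [IsFractionRing R F]

/-- `S24.exists_heightOneSpectrum_of_le` for an arbitrary valuation subring. -/
theorem ValPlace_of_le (x : ValuationSubring F) (hx : x ≠ ⊤)
    (h : ∀ r : R, algebraMap R F r ∈ x) :
    ∃ P : HeightOneSpectrum R, x = (P.valuation F).valuationSubring := by
  classical
  let φ : R →+* x := (algebraMap R F).codRestrict x.toSubring h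
  have hφ : ∀ r, ((φ r : x) : F) = algebraMap R F r := fun r => rfl
  let 𝔭 : Ideal R := (IsLocalRing.maximalIdeal x).comap φ
  have hprime : 𝔭.IsPrime := Ideal.comap_isPrime φ _
  have hmem𝔭 : ∀ r, r ∈ 𝔭 ↔ ¬ IsUnit (φ r) := by
    intro r
    rw [Ideal.mem_comap, IsLocalRing.mem_maximalIdeal, mem_nonunits_iff]
  have hinv : ∀ d : R, d ∉ 𝔭 → (algebraMap R F d)⁻¹ ∈ x := by
    intro d hd
    rw [hmem𝔭, not_not] at hd
    obtain ⟨u, hu⟩ := hd
    have h3 : ((u : x) : F) * (((u⁻¹ : xˣ) : x) : F) = 1 :=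
      congrArg (Subtype.val) (u.mul_inv)
    rw [← hφ d, ← hu, inv_eq_of_mul_eq_one_right h3]
    exact Subtype.property _
  have hne : 𝔭 ≠ ⊥ := by
    intro hbot
    apply hx
    refine SetLike.ext fun y => ⟨fun _ => ValuationSubring.mem_top y, fun _ => ?_⟩
    obtain ⟨a, b, hb, rfl⟩ := IsFractionRing.div_surjective (A := R) y
    have hb0 : b ≠ 0 := nonZeroDivisors.ne_zero hb
    have hb𝔭 : b ∉ 𝔭 := by
      rw [hbot, Ideal.mem_bot]
      exact hb0
    rw [div_eq_mul_inv]
    exact x.mul_mem _ _ (h a) (hinv b hb𝔭)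
  let P : HeightOneSpectrum R := ⟨𝔭, hprime, hne⟩
  have hle : ∀ y : F, P.valuation F y ≤ 1 → y ∈ x := by
    intro y hy
    obtain ⟨n, d, hnd⟩ := P.exists_primeCompl_mul_eq_of_integer y hy
    have hd𝔭 : (d : R) ∉ 𝔭 := d.2
    have hd0 : algebraMap R F (d : R) ≠ 0 := by
      intro h0
      apply hd𝔭
      have : (d : R) = 0 := (IsFractionRing.injective R F) (by rw [h0, map_zero])
      rw [this]
      exact 𝔭.zero_mem
    have hy' : y = algebraMap R F n * (algebraMap R F (d : R))⁻¹ := by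
      rw [← hnd, mul_assoc, mul_inv_cancel₀ hd0, mul_one]
    rw [hy']
    exact x.mul_mem _ _ (h n) (hinv d hd𝔭)
  refine ⟨P, ?_⟩
  refine SetLike.ext fun y => ?_
  rw [Valuation.mem_valuationSubring_iff]
  refine ⟨fun hy => ?_, hle y⟩
  by_contra hgt
  rw [not_le] at hgt
  have hy0 : y ≠ 0 := by
    rintro rfl
    rw [map_zero] at hgt
    exact not_lt_of_ge zero_le hgt
  have hlt : P.valuation F y⁻¹ < 1 := by
    rw [map_inv₀]
    exact (inv_lt_one₀ (lt_trans zero_lt_one hgt)).2 hgt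
  obtain ⟨n, d, hnd⟩ := P.exists_primeCompl_mul_eq_of_integer y⁻¹ hlt.le
  have hd𝔭 : (d : R) ∉ 𝔭 := d.2
  have hn𝔭 : n ∈ 𝔭 := by
    have h1 : P.valuation F (algebraMap R F n) < 1 := by
      rw [← hnd, map_mul]
      exact mul_lt_one_of_lt_of_le hlt (P.valuation_le_one _)
    exact (P.valuation_lt_one_iff_mem n).1 h1
  apply hd𝔭
  have hmul : φ d = (⟨y, hy⟩ : x) * φ n := by
    ext
    show algebraMap R F (d : R) = y * algebraMap R F n
    rw [← hnd, ← mul_assoc, mul_inv_cancel₀ hy0, one_mul]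
  show φ d ∈ IsLocalRing.maximalIdeal x
  rw [hmul]
  exact Ideal.mul_mem_left _ _ hn𝔭

end Abstract

variable {k κ : Type*} [Field k] [Field κ] [Algebra k κ]

theorem ValPlace_polyRing_le {t : κ} (x : ValuationSubring κ)
    (hk : ∀ c : k, algebraMap k κ c ∈ x) (ht : t ∈ x) (a : polyRing k t) : (a : κ) ∈ x := by
  let S : Subalgebra k κ := { x.toSubring with algebraMap_mem' := hk }
  have hle : polyRing k t ≤ S := Algebra.adjoin_le (by
    intro y hy
    rw [Set.mem_singleton_iff] at hy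
    rw [hy]; exact ht)
  exact hle a.2

theorem ValPlace_intRing_le {t : κ} (x : ValuationSubring κ)
    (hk : ∀ c : k, algebraMap k κ c ∈ x) (ht : t ∈ x) (b : intRing k t) : (b : κ) ∈ x := by
  let φ : polyRing k t →+* x :=
    (algebraMap (polyRing k t) κ).codRestrict x.toSubring (ValPlace_polyRing_le x hk ht)
  have h1 : IsIntegral x (b : κ) :=
    IsIntegral.map_of_comp_eq φ (RingHom.id κ) rfl b.2
  obtain ⟨y, hy⟩ := (IsIntegrallyClosed.isIntegral_iff (R := x) (K := κ)).mp h1
  rw [← hy]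
  exact y.2

/-- a valuation subring `≠ ⊤` containing `k` and the separating variable `t` is a place. -/
theorem ValPlace_of_mem {t : κ} (h : IsSepVar k t) (x : ValuationSubring κ)
    (hk : ∀ c : k, algebraMap k κ c ∈ x) (hx : x ≠ ⊤) (ht : t ∈ x) :
    ∃ v : Place k κ, v.toValuationSubring = x := by
  have := Fund_isDedekindDomain h
  have := Fund_isFractionRing h
  obtain ⟨P, hP⟩ := ValPlace_of_le (R := intRing k t) x hx (fun r => ValPlace_intRing_le x hk ht r)
  exact ⟨Place.ofHeightOneSpectrum (K := k) P, by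
    rw [Place.ofHeightOneSpectrum_toValuationSubring, hP]⟩

theorem stmt_ValPlace (hS : Stmt_Shift) : Stmt_ValPlace := by
  intro k κ _ _ _ tb h x hk hx
  rcases x.mem_or_inv_mem tb with ht | ht
  · exact ValPlace_of_mem h x hk hx ht
  · exact ValPlace_of_mem (hS k κ tb h).2.1 x hk hx ht

end Fermat.Agent.FF19.Kap
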