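import Fermat.Agent.FF19.Kap.Fund
import Fermat.Agent.FF19.Kap.SepGen
import Fermat.Agent.FF19.Kap.Shift
import Fermat.Agent.FF19.Kap.Deg0
import Fermat.Agent.FF19.Kap.RRS
import Fermat.Agent.FF19.Kap.FibDiv
import Fermat.Agent.FF19.Kap.Unram
import Fermat.Agent.FF19.Kap.IntIff
import Fermat.Agent.FF19.Kap.PtPlace
import Fermat.Agent.FF19.Kap.LocFrac
import Fermat.Agent.FF19.Kap.ValPlace
import Fermat.Agent.FF19.Kap.PtAx
import Fermat.Agent.FF19.Kap.UnrFin
import Fermat.Agent.FF19.Kap.NSOut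
import Fermat.Agent.FF19.NS.Abs
import Fermat.Agent.FF19.NS.Step
import Fermat.Agent.FF19.NS.Drop
import Fermat.Agent.FF19.NS.Indep

/-!
# FF19 / KAP : everything, unconditionally
-/

set_option autoImplicit false

namespace Fermat.Agent.FF19.Kap

theorem all_Fund : Stmt_Fund := stmt_Fund
theorem all_SepGen : Stmt_SepGen := stmt_SepGen
theorem all_Shift : Stmt_Shift := stmt_Shift
theorem all_Basic : Stmt_Basic := stmt_Basic all_Shift
theorem all_Deg0 : Stmt_Deg0 := stmt_Deg0 all_SepGen all_Shift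
theorem all_RRS : Stmt_RRS := stmt_RRS all_Deg0 all_Basic
theorem all_FibDiv : Stmt_FibDiv := stmt_FibDiv all_Shift all_Basic
theorem all_Fibre : Stmt_Fibre := stmt_Fibre all_Shift all_Basic
theorem all_Unram : Stmt_Unram := stmt_Unram
theorem all_IntIff : Stmt_IntIff := stmt_IntIff
theorem all_LInf : Stmt_LInf := stmt_LInf all_IntIff all_Shift
theorem all_PtPlace : Stmt_PtPlace := stmt_PtPlace
theorem all_PlaceExt : Stmt_PlaceExt := stmt_PlaceExt
theorem all_LocFrac : Stmt_LocFrac := stmt_LocFrac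
theorem all_CRT : Stmt_CRT := stmt_CRT
theorem all_ValPlace : Stmt_ValPlace := stmt_ValPlace all_Shift
theorem all_PtAx : Stmt_PtAx := stmt_PtAx all_ValPlace all_Basic all_RRS
theorem all_UnrFin : Stmt_UnrFin := stmt_UnrFin all_ValPlace all_Unram all_Fibre
theorem all_NSAbs : NS.Stmt_Abs := NS.abs (NS.step NS.drop NS.indep)
theorem all_NSOut : Stmt_NSOut := stmt_NSOut all_NSAbs all_PtAx all_UnrFin all_ValPlace

end Fermat.Agent.FF19.Kap
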