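import Fermat.Agent.S24.FundId
import Fermat.Agent.S24.PlaceCases
import Fermat.Agent.S24.DegPrincipalCore
import Fermat.Agent.S27.RA
import Fermat.Agent.RED.Defs
import Fermat.Agent.INJ.Defs

/-!
# FF19 / KAP : function field toolkit in ANY characteristic (architect helper98)

Setting: `k` algebraically closed (any characteristic), `κ / k` a field, `tb : κ` a *separating
variable*: transcendental over `k`, `κ / k(tb)` finite and separable (`IsSepVar k tb`).  In the
application `κ` is the residue field of the Gauss valuation of `FF M`, `tb = D.rd t`, and
`IsSepVar` is `INJ.Chart` (`trans`, `sep`) + `INJ.Stmt_ResFinite`.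

Everything is expressed in the language of the prelude (`Place k κ`, `Divisor k κ`, `Place.ord`,
`riemannRochSpace`), of `RED` (`Ev v y c` : "`y` is regular at `v` with value `c`") and of `INJ`
(`IsInt k tb y` : "`y` is integral over `k[tb]`").

The files `S24/PlaceBasic, PlacePrime, PlaceCases, DegPrincipalCore`, the first 170 lines of
`S24/FundId` and the namespace `S27.RA` are characteristic free and can be cited for `κ / k`.
-/

set_option autoImplicit false

namespace Fermat.Agent.FF19.Kap

open AlgebraicCurve IntermediateField

/-- `x` is a separating variable of the function field `κ / k`. -/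
structure IsSepVar (k : Type*) {κ : Type*} [Field k] [Field κ] [Algebra k κ] (x : κ) : Prop where
  trans : Transcendental k x
  fin : FiniteDimensional k⟮x⟯ κ
  sep : Algebra.IsSeparable k⟮x⟯ κ

/-- `D` is the divisor of zeros of `f`. -/
def IsZeroDiv {k κ : Type*} [Field k] [Field κ] [Algebra k κ] (f : κ) (D : Divisor k κ) : Prop :=
  ∀ v : Place k κ, D v = max 0 (v.ord f)

/-- `D` is the divisor of poles of `f`. -/
def IsPoleDiv {k κ : Type*} [Field k] [Field κ] [Algebra k κ] (f : κ) (D : Divisor k κ) : Prop :=
  ∀ v : Place k κ, D v = max 0 (-v.ord f)

end Fermat.Agent.FF19.Kap
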