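import Fermat.Agent.FF19.Kap.NSInterface
import Fermat.Agent.RED.EvBasic

/-!
# FF19 / KAP-12 : the output of NS in the language of blocks A and LAW (`Stmt_NSOut`)
-/

set_option autoImplicit false

namespace Fermat.Agent.FF19.Kap

open AlgebraicCurve IntermediateField
open Fermat.Agent.INJ (IsInt)
open Fermat.Agent.RED (Ev)

section

variable {k κ : Type} [Field k] [Field κ] [Algebra k κ]

theorem NO_val_lt_iff (v : Place k κ) {f : κ} (hf : f ≠ 0) :
    v.toValuationSubring.valuation f < 1 ↔ 0 < v.ord f := by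
  rw [← ValuationSubring.mem_nonunits_iff, ← Fermat.Agent.RED.ev_zero_iff,
    Fermat.Agent.RED.ev_zero_iff_ord hf]

theorem NO_mem_Pts (v : Place k κ) : v.toValuationSubring ∈ Pts k (κ := κ) :=
  ⟨v.algebraMap_mem', v.ne_top'⟩

theorem NO_sub_ne {tb : κ} (h : IsSepVar k tb) (c : k) : tb - algebraMap k κ c ≠ 0 := by
  intro h0
  apply h.trans
  rw [sub_eq_zero.mp h0]
  exact isAlgebraic_algebraMap c

open Classical in
theorem NO_sumPl_apply {g : ℕ} (x : Fin g → Place k κ) (y : Place k κ) :
    A.sumPl x y = ∑ i, if x i = y then (1 : ℤ) else 0 := by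
  unfold A.sumPl
  rw [Finsupp.finsetSum_apply]
  refine Finset.sum_congr rfl fun i _ => ?_
  rw [Finsupp.single_apply]

theorem NO_exists_enum {α : Type} (S : Finset α) (n : ℕ) (h : S.card = n + 1) (a : α)
    (ha : a ∈ S) : ∃ e : Fin (n + 1) ≃ S, ((e 0 : S) : α) = a := by
  classical
  let e0 : Fin (n + 1) ≃ S := (S.equivFinOfCardEq h).symm
  refine ⟨(Equiv.swap 0 (e0.symm ⟨a, ha⟩)).trans e0, ?_⟩
  rw [Equiv.trans_apply, Equiv.swap_apply_left, Equiv.apply_symm_apply]

end

theorem stmt_NSOut (hAbs : NS.Stmt_Abs) (hP : Stmt_PtAx) (hU : Stmt_UnrFin) (hV : Stmt_ValPlace) :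
    Stmt_NSOut := by
  classical
  intro k κ _ _ _ _ tb hsep s g m hfr hUB Z
  obtain ⟨c, P, hNS, hcZ⟩ := hAbs k κ (Pts k) tb (s + 1) g m (hP k κ tb hsep)
    (by have := hU k κ tb hsep; rwa [hfr] at this) hUB Z
  choose S hS hPS using hNS.fib
  choose e he0 using fun i => NO_exists_enum (S i) s (hS i).card (P i) (hPS i)
  have hpl : ∀ i l, ∃ v : Place k κ, v.toValuationSubring = ((e i l : S i) : ValuationSubring κ) :=
    fun i l => hV k κ tb hsep _ ((hS i).sub _ (e i l).2).1 ((hS i).sub _ (e i l).2).2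
  choose w hw using hpl
  have hu : ∀ i, tb - algebraMap k κ (c i) ≠ 0 := fun i => NO_sub_ne hsep (c i)
  have hpos : ∀ i l, 0 < (w i l).ord (tb - algebraMap k κ (c i)) := by
    intro i l
    rw [← NO_val_lt_iff _ (hu i), hw i l]
    exact ((hS i).mem_iff _ ((hS i).sub _ (e i l).2)).1 (e i l).2
  have hone : ∀ i l, (w i l).ord (tb - algebraMap k κ (c i)) = 1 := by
    intro i l
    obtain ⟨π, hπ⟩ := Fermat.Agent.S24.exists_ord_eq_one (w i l)
    have hπ0 : π ≠ 0 := by
      rintro rfl
      rw [Place.ord_zero] at hπ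
      exact zero_ne_one hπ
    have h1 : ((e i l : S i) : ValuationSubring κ).valuation π < 1 := by
      rw [← hw i l, NO_val_lt_iff _ hπ0, hπ]
      exact one_pos
    have h2 := (hS i).unif _ (e i l).2 π h1
    rw [← hw i l] at h2
    have h3 := Fermat.Agent.S24.ord_nonneg_of_mem _ h2
    rw [div_eq_mul_inv, Place.ord_mul _ hπ0 (inv_ne_zero (hu i)), Place.ord_inv, hπ] at h3
    have := hpos i l
    omega
  have hinj0 : Function.Injective (fun i => w i 0) := by
    intro i j hij
    have hij' : w i 0 = w j 0 := hij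
    apply hNS.inj
    have h1 : Ev (w i 0) tb (c i) := by
      unfold Ev
      rw [ValuationSubring.mem_nonunits_iff, NO_val_lt_iff _ (hu i)]
      exact hpos i 0
    have h2 : Ev (w i 0) tb (c j) := by
      unfold Ev
      rw [ValuationSubring.mem_nonunits_iff, NO_val_lt_iff _ (hu j), hij']
      exact hpos j 0
    exact Fermat.Agent.RED.ev_unique h1 h2
  have hw0 : ∀ i, (w i 0).toValuationSubring = P i := fun i => (hw i 0).trans (he0 i)
  refine ⟨c, w, hNS.inj, hcZ, hone, ?_, ?_, hinj0, ?_⟩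
  · intro i l l' hll
    apply (e i).injective
    apply Subtype.ext
    rw [← hw i l, ← hw i l', hll]
  · intro i y hy
    have h1 : y.toValuationSubring ∈ S i := by
      rw [(hS i).mem_iff _ (NO_mem_Pts y), NO_val_lt_iff _ (hu i)]
      exact hy
    refine ⟨(e i).symm ⟨_, h1⟩, ?_⟩
    apply Place.ext
    rw [hw, Equiv.apply_symm_apply]
  · intro h hh0 hh
    refine hNS.ns h ?_ ?_
    · intro x hx hxP
      obtain ⟨y, hy⟩ := hV k κ tb hsep x hx.1 hx.2
      have h1 : A.sumPl (fun i => w i 0) y = 0 := by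
        rw [NO_sumPl_apply]
        refine Finset.sum_eq_zero fun i _ => ?_
        rw [if_neg]
        intro hi
        apply hxP i
        rw [← hy, ← hi, hw0]
      have h2 := hh y
      rw [h1, zero_add] at h2
      rw [← hy]
      exact Fermat.Agent.S24.mem_of_ord_nonneg y hh0 h2
    · intro i
      have h1 : A.sumPl (fun i => w i 0) (w i 0) = 1 := by
        rw [NO_sumPl_apply]
        have : ∀ j, (if w j 0 = w i 0 then (1 : ℤ) else 0) = if j = i then 1 else 0 := by
          intro j
          by_cases hj : j = i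
          · rw [if_pos hj, if_pos (by rw [hj])]
          · rw [if_neg hj, if_neg (fun h' => hj (hinj0 h'))]
        simp only [this]
        simp
      have h2 := hh (w i 0)
      rw [h1] at h2
      rw [← hw0 i]
      apply Fermat.Agent.S24.mem_of_ord_nonneg _ (mul_ne_zero (hu i) hh0)
      rw [Place.ord_mul _ (hu i) hh0, hone i 0]
      exact h2

end Fermat.Agent.FF19.Kap
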